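/-
S55, layer T, leaf T6a (Nakayama), helper59.  Part 2: weakly projective representations.

`A : Rep k G` is weakly projective (`IsWP`) if the identity of `A` is the norm `∑ g, g ∘ u ∘ g⁻¹`
of an additive endomorphism `u`.  Modules of functions `G → V` are weakly projective, `Hom(R, A)`
is weakly projective whenever `A` is, and weakly projective representations have vanishing
cohomology in positive degrees (they are retracts of `G → A`).
-/
import Fermat.Agent.S55.H783.Shift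

set_option autoImplicit false

open CategoryTheory CategoryTheory.Limits groupCohomology

namespace Fermat.Agent.S55.T.Nak59

open Fermat.Agent.S55

variable {k G : Type} [CommRing k] [Group G]

/-- The elements of `Hom(R, A)` as linear maps. -/
def ihomLin (R A : Rep.{0} k G) : ((Rep.ihom R).obj A).V ≃ₗ[k] (R.V →ₗ[k] A.V) :=
  LinearEquiv.refl k (R.V →ₗ[k] A.V)

lemma ihomLin_ρ (R A : Rep.{0} k G) (g : G) (φ : ((Rep.ihom R).obj A).V) (r : R.V) :
    ihomLin R A (((Rep.ihom R).obj A).ρ g φ) r = A.ρ g (ihomLin R A φ (R.ρ g⁻¹ r)) := rfl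

lemma ihomLin_map (R : Rep.{0} k G) {A B : Rep.{0} k G} (f : A ⟶ B)
    (φ : ((Rep.ihom R).obj A).V) (r : R.V) :
    ihomLin R B (((Rep.ihom R).map f).hom φ) r = f.hom (ihomLin R A φ r) := rfl

lemma ihomLin_symm_apply (R A : Rep.{0} k G) (φ : R.V →ₗ[k] A.V) (r : R.V) :
    ihomLin R A ((ihomLin R A).symm φ) r = φ r := rfl

variable [Fintype G]

/-- `A` is weakly projective: the identity is the norm of a linear endomorphism. -/
def IsWP (A : Rep.{0} k G) : Prop :=
  ∃ u : A.V →ₗ[k] A.V, ∀ a : A.V, ∑ g : G, A.ρ g (u (A.ρ g⁻¹ a)) = a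

/-- Modules of functions are weakly projective. -/
theorem isWP_funRep (V : Type) [AddCommGroup V] [Module k V] : IsWP (H783.funRep k G V) := by
  classical
  refine ⟨(LinearMap.single k (fun _ : G => V) 1) ∘ₗ (LinearMap.proj 1), fun f => ?_⟩
  funext x
  rw [Finset.sum_apply]
  have h : ∀ g : G, ((H783.funRep k G V).ρ g
      (((LinearMap.single k (fun _ : G => V) 1) ∘ₗ (LinearMap.proj 1))
        ((H783.funRep k G V).ρ g⁻¹ f))) x = if g = x⁻¹ then f x else 0 := by
    intro g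
    change Pi.single (M := fun _ : G => V) 1 (f (1 * g⁻¹)) (x * g) = _
    by_cases hg : g = x⁻¹
    · subst hg
      simp
    · rw [if_neg hg, Pi.single_eq_of_ne]
      intro h
      exact hg (eq_inv_of_mul_eq_one_right h)
  rw [Finset.sum_congr rfl fun g _ => h g]
  simp

/-- `Hom(R, A)` is weakly projective if `A` is. -/
theorem IsWP.ihom (R : Rep.{0} k G) {A : Rep.{0} k G} (hA : IsWP A) :
    IsWP ((Rep.ihom R).obj A) := by
  obtain ⟨u, hu⟩ := hA
  refine ⟨(ihomLin R A).symm.toLinearMap ∘ₗ (LinearMap.llcomp k R.V A.V A.V u) ∘ₗ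
    (ihomLin R A).toLinearMap, fun φ => ?_⟩
  apply (ihomLin R A).injective
  apply LinearMap.ext
  intro r
  rw [map_sum, LinearMap.sum_apply]
  have h : ∀ g : G, ihomLin R A (((Rep.ihom R).obj A).ρ g
      (((ihomLin R A).symm.toLinearMap ∘ₗ (LinearMap.llcomp k R.V A.V A.V u) ∘ₗ
        (ihomLin R A).toLinearMap) (((Rep.ihom R).obj A).ρ g⁻¹ φ))) r =
      A.ρ g (u (A.ρ g⁻¹ (ihomLin R A φ r))) := by
    intro g
    change A.ρ g (u (A.ρ g⁻¹ (ihomLin R A φ (R.ρ g⁻¹⁻¹ (R.ρ g⁻¹ r))))) = _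
    rw [inv_inv, ← Module.End.mul_apply (R.ρ g), ← map_mul, mul_inv_cancel, map_one,
      Module.End.one_apply]
  exact (Finset.sum_congr rfl fun g _ => h g).trans (hu (ihomLin R A φ r))

/-- Transport of weak projectivity along a bijective morphism. -/
theorem IsWP.of_bijective {A B : Rep.{0} k G} (f : A ⟶ B) (hf : Function.Bijective f.hom)
    (hB : IsWP B) : IsWP A := by
  obtain ⟨u, hu⟩ := hB
  let e : A.V ≃ₗ[k] B.V := LinearEquiv.ofBijective f.hom.toLinearMap hf
  refine ⟨e.symm.toLinearMap ∘ₗ u ∘ₗ e.toLinearMap, fun a => ?_⟩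
  apply hf.1
  rw [map_sum]
  have h : ∀ g : G, f.hom (A.ρ g ((e.symm.toLinearMap ∘ₗ u ∘ₗ e.toLinearMap) (A.ρ g⁻¹ a))) =
      B.ρ g (u (B.ρ g⁻¹ (f.hom a))) := by
    intro g
    rw [Rep.hom_comm_apply]
    congr 1
    change e (e.symm (u (f.hom (A.ρ g⁻¹ a)))) = _
    rw [LinearEquiv.apply_symm_apply, Rep.hom_comm_apply]
  rw [Finset.sum_congr rfl fun g _ => h g]
  exact hu (f.hom a)

section Retract

variable (A : Rep.{0} k G) (u : A.V →ₗ[k] A.V)

/-- The averaging map `(G → A) → A`, `f ↦ ∑ x, x⁻¹ • u (f x)`. -/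
def wpRetr : H783.funRep k G A.V ⟶ A :=
  Rep.ofHom (ρ := H783.funRho k G A.V) (σ := A.ρ)
    ⟨∑ x : G, (A.ρ x⁻¹) ∘ₗ u ∘ₗ (LinearMap.proj x), fun g => by
      apply LinearMap.ext
      intro f
      change (∑ x : G, (A.ρ x⁻¹) ∘ₗ u ∘ₗ (LinearMap.proj x)) (H783.funRho k G A.V g f) =
        A.ρ g ((∑ x : G, (A.ρ x⁻¹) ∘ₗ u ∘ₗ (LinearMap.proj x)) f)
      rw [LinearMap.sum_apply, LinearMap.sum_apply, map_sum]
      refine Fintype.sum_equiv (Equiv.mulRight g) _ _ fun x => ?_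
      change A.ρ x⁻¹ (u (f (x * g))) = A.ρ g (A.ρ (x * g)⁻¹ (u (f (x * g))))
      rw [← Module.End.mul_apply (A.ρ g), ← map_mul, mul_inv_rev, mul_inv_cancel_left]⟩

lemma wpRetr_apply (f : G → A.V) :
    (wpRetr A u).hom f = ∑ x : G, A.ρ x⁻¹ (u (f x)) := by
  change (∑ x : G, (A.ρ x⁻¹) ∘ₗ u ∘ₗ (LinearMap.proj x)) f = _
  rw [LinearMap.sum_apply]
  rfl

lemma shiftIncl_wpRetr (hu : ∀ a : A.V, ∑ g : G, A.ρ g (u (A.ρ g⁻¹ a)) = a) :
    H783.shiftIncl A ≫ wpRetr A u = 𝟙 A := by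
  apply Rep.hom_ext
  apply Representation.IntertwiningMap.ext
  apply LinearMap.ext
  intro a
  change (wpRetr A u).hom ((H783.shiftIncl A).hom a) = a
  rw [wpRetr_apply]
  conv_rhs => rw [← hu a]
  refine Fintype.sum_equiv (Equiv.inv G) _ _ fun x => ?_
  change A.ρ x⁻¹ (u (A.ρ x a)) = A.ρ x⁻¹ (u (A.ρ x⁻¹⁻¹ a))
  rw [inv_inv]

end Retract

/-- Weakly projective representations have vanishing cohomology in positive degrees. -/
theorem IsWP.isZero {A : Rep.{0} k G} (hA : IsWP A) (n : ℕ) :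
    IsZero (groupCohomology A (n + 1)) := by
  obtain ⟨u, hu⟩ := hA
  have hF : IsZero ((groupCohomology.functor k G (n + 1)).obj (H783.funRep k G A.V)) :=
    H783.isZero_funRep (k := k) (G := G) A.V n
  change IsZero ((groupCohomology.functor k G (n + 1)).obj A)
  rw [IsZero.iff_id_eq_zero, ← CategoryTheory.Functor.map_id, ← shiftIncl_wpRetr A u hu,
    CategoryTheory.Functor.map_comp]
  rw [hF.eq_of_tgt ((groupCohomology.functor k G (n + 1)).map (H783.shiftIncl A)) 0, zero_comp]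

end Fermat.Agent.S55.T.Nak59
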