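/-
S55, layer T, leaf T6a (Nakayama), helper59.  Part 3: `Hom(R, -)` is exact for projective `R`.
-/
import Fermat.Agent.S55.T.Nak59.WeakProj
import Fermat.Agent.S55.H295.Basic

set_option autoImplicit false

open CategoryTheory CategoryTheory.Limits groupCohomology

namespace Fermat.Agent.S55.T.Nak59

open Fermat.Agent.S55

variable {k G : Type} [CommRing k] [Group G]

lemma ihom_map_zero (R : Rep.{0} k G) (A B : Rep.{0} k G) :
    (Rep.ihom R).map (0 : A ⟶ B) = 0 := by
  apply Rep.hom_ext
  apply Representation.IntertwiningMap.ext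
  apply LinearMap.ext
  intro φ
  apply (ihomLin R B).injective
  apply LinearMap.ext
  intro r
  rfl

/-- The image of a short complex under `Hom(R, -)`. -/
noncomputable def ihomSC (R : Rep.{0} k G) (S : ShortComplex (Rep.{0} k G)) : ShortComplex (Rep.{0} k G) :=
  ShortComplex.mk ((Rep.ihom R).map S.f) ((Rep.ihom R).map S.g)
    (by rw [← CategoryTheory.Functor.map_comp, S.zero, ihom_map_zero])

/-- `Hom(R, -)` preserves short exact sequences if `R` is projective over `k`. -/
theorem ihomSC_shortExact (R : Rep.{0} k G) (hR : Module.Projective k R.V)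
    {S : ShortComplex (Rep.{0} k G)} (hS : S.ShortExact) : (ihomSC R S).ShortExact := by
  apply H295.rep_shortExact_of
  · intro φ ψ h
    apply (ihomLin R S.X₁).injective
    apply LinearMap.ext
    intro r
    apply H295.rep_shortExact_inj hS
    exact congrArg (fun χ => ihomLin R S.X₂ χ r) h
  · intro φ hφ
    have h1 : ∀ r : R.V, S.g.hom (ihomLin R S.X₂ φ r) = 0 := fun r =>
      congrArg (fun χ => ihomLin R S.X₃ χ r) hφ
    have hinj := H295.rep_shortExact_inj hS
    let e := LinearEquiv.ofInjective S.f.hom.toLinearMap hinj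
    have h2 : ∀ r : R.V, ihomLin R S.X₂ φ r ∈ LinearMap.range S.f.hom.toLinearMap := by
      intro r
      obtain ⟨y, hy⟩ := H295.rep_shortExact_exact hS _ (h1 r)
      exact ⟨y, hy⟩
    refine ⟨(ihomLin R S.X₁).symm
      (e.symm.toLinearMap ∘ₗ LinearMap.codRestrict _ (ihomLin R S.X₂ φ) h2), ?_⟩
    apply (ihomLin R S.X₂).injective
    apply LinearMap.ext
    intro r
    change S.f.hom (e.symm (LinearMap.codRestrict _ (ihomLin R S.X₂ φ) h2 r)) = _
    exact congrArg Subtype.val (e.apply_symm_apply _)
  · intro φ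
    obtain ⟨ψ, hψ⟩ := Module.projective_lifting_property S.g.hom.toLinearMap (ihomLin R S.X₃ φ)
      (H295.rep_shortExact_surj hS)
    refine ⟨(ihomLin R S.X₂).symm ψ, ?_⟩
    apply (ihomLin R S.X₃).injective
    exact hψ

end Fermat.Agent.S55.T.Nak59
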