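/-
S55, layer T, leaf T6a (Nakayama), helper59.  Part 5: two consequences of the long exact
sequence, and additivity of `Hⁿ(G, -)`.
-/
import Mathlib.RepresentationTheory.Homological.GroupCohomology.LongExactSequence
import Mathlib.RepresentationTheory.Homological.GroupCohomology.Functoriality

set_option autoImplicit false

open CategoryTheory CategoryTheory.Limits groupCohomology

namespace Fermat.Agent.S55.T.Nak59

variable {k G : Type} [CommRing k] [Group G]

/-- If `Hⁿ(X₃) = 0`, then `Hⁿ⁺¹(X₁) → Hⁿ⁺¹(X₂)` is injective. -/
theorem map_f_injective_of_isZero {X : ShortComplex (Rep.{0} k G)} (hX : X.ShortExact) (n : ℕ)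
    (h3 : IsZero (groupCohomology X.X₃ n)) :
    Function.Injective ((groupCohomology.functor k G (n + 1)).map X.f).hom := by
  have hex := mapShortComplex₁_exact hX (i := n) (j := n + 1) rfl
  have hmono : Mono (mapShortComplex₁ hX (i := n) (j := n + 1) rfl).g :=
    hex.mono_g (h3.eq_of_src _ _)
  exact (ModuleCat.mono_iff_injective _).1 hmono

lemma functor_map_add' {A B : Rep.{0} k G} (f g : A ⟶ B) (n : ℕ) :
    (groupCohomology.functor k G n).map (f + g) =
      (groupCohomology.functor k G n).map f + (groupCohomology.functor k G n).map g := by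
  have h : cochainsMap (MonoidHom.id G) (f + g) =
      cochainsMap (MonoidHom.id G) f + cochainsMap (MonoidHom.id G) g :=
    (cochainsFunctor k G).map_add
  change HomologicalComplex.homologyMap (cochainsMap (MonoidHom.id G) (f + g)) n = _
  rw [h, HomologicalComplex.homologyMap_add]
  rfl

lemma functor_map_nsmul_id (A : Rep.{0} k G) (m n : ℕ) :
    (groupCohomology.functor k G n).map (m • 𝟙 A) = m • 𝟙 _ := by
  induction m with
  | zero => rw [zero_smul, zero_smul]; exact (groupCohomology.functor k G n).map_zero _ _
  | succ m ih =>
    rw [succ_nsmul, succ_nsmul, functor_map_add', ih, CategoryTheory.Functor.map_id]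

lemma functor_map_nsmul_id_apply (A : Rep.{0} k G) (m n : ℕ) (x : groupCohomology A n) :
    ((groupCohomology.functor k G n).map (m • 𝟙 A)).hom x = m • x := by
  rw [functor_map_nsmul_id]
  rfl

end Fermat.Agent.S55.T.Nak59
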