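/-
S55, layer T, leaf T6a (Nakayama), helper59.  Part 1: the fixed point lemma for `p`-groups.

A finite `p`-group acting additively on a nonzero abelian group of exponent `p` has a nonzero
fixed vector.  Stated for a stable additive subgroup `K ≠ ⊥`.
-/
import Mathlib

set_option autoImplicit false

namespace Fermat.Agent.S55.T.Nak59

open MulAction

/-- **Fixed point lemma.**  Let `G` be a finite `p`-group acting on an abelian group `V` of
exponent `p` by additive maps, and `K` a nonzero `G`-stable subgroup.  Then `K` contains a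
nonzero `G`-fixed vector. -/
theorem exists_ne_zero_fixed {G V : Type*} [Group G] [Finite G] [AddCommGroup V]
    (p : ℕ) [hp : Fact p.Prime] (hG : IsPGroup p G) (ρ : G →* AddMonoid.End V)
    (hpV : ∀ v : V, p • v = 0) (K : AddSubgroup V) (hK : ∀ g : G, ∀ v ∈ K, ρ g v ∈ K)
    (hK0 : K ≠ ⊥) : ∃ v ∈ K, v ≠ 0 ∧ ∀ g : G, ρ g v = v := by
  classical
  obtain ⟨v₀, hv₀K, hv₀⟩ : ∃ v ∈ K, v ≠ 0 := by
    by_contra h
    push_neg at h
    apply hK0
    rw [eq_bot_iff]
    intro v hv
    exact (AddSubgroup.mem_bot).2 (h v hv)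
  -- the subgroup generated by the orbit of `v₀`
  set W : AddSubgroup V := AddSubgroup.closure (Set.range fun g : G => ρ g v₀) with hW
  have hWK : W ≤ K := by
    rw [hW, AddSubgroup.closure_le]
    rintro _ ⟨g, rfl⟩
    exact hK g v₀ hv₀K
  have hv₀W : v₀ ∈ W := by
    apply AddSubgroup.subset_closure
    exact ⟨1, by simp⟩
  have hWst : ∀ g : G, ∀ w ∈ W, ρ g w ∈ W := by
    intro g w hw
    induction hw using AddSubgroup.closure_induction with
    | mem x hx =>
      obtain ⟨h, rfl⟩ := hx
      apply AddSubgroup.subset_closure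
      refine ⟨g * h, ?_⟩
      simp [map_mul]
    | zero => simp
    | add x y _ _ hx hy =>
      rw [map_add]
      exact W.add_mem hx hy
    | neg x _ hx =>
      rw [map_neg]
      exact W.neg_mem hx
  -- `W` is finite
  haveI : Finite (Set.range fun g : G => ρ g v₀) := Set.finite_range _
  have hWfg : W.FG := (AddSubgroup.fg_iff W).2 ⟨_, rfl, Set.finite_range _⟩
  haveI : AddGroup.FG ↥W := (AddGroup.fg_iff_addSubgroup_fg W).2 hWfg
  have htors : AddMonoid.IsTorsion ↥W := by
    intro w
    rw [isOfFinAddOrder_iff_nsmul_eq_zero]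
    refine ⟨p, hp.out.pos, ?_⟩
    apply Subtype.ext
    simpa using hpV w
  haveI : Finite ↥W := AddCommGroup.finite_of_fg_torsion ↥W htors
  -- the action on `W`
  letI : MulAction G ↥W :=
    { smul := fun g w => ⟨ρ g w, hWst g w w.2⟩
      one_smul := fun w => Subtype.ext (by
        change ρ 1 (w : V) = w
        simp)
      mul_smul := fun g h w => Subtype.ext (by
        change ρ (g * h) (w : V) = ρ g (ρ h (w : V))
        simp [map_mul]) }
  have hsmul : ∀ (g : G) (w : ↥W), ((g • w : ↥W) : V) = ρ g w := fun _ _ => rfl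
  -- counting
  have hcard := hG.card_modEq_card_fixedPoints ↥W
  have hpW : p ∣ Nat.card ↥W := by
    have h1 : addOrderOf (⟨v₀, hv₀W⟩ : ↥W) = p := by
      apply addOrderOf_eq_prime
      · apply Subtype.ext
        simpa using hpV v₀
      · intro h
        exact hv₀ (congrArg Subtype.val h)
    rw [← h1]
    exact addOrderOf_dvd_natCard _
  have hpF : p ∣ Nat.card ↥(fixedPoints G ↥W) := by
    have := (Nat.modEq_zero_iff_dvd.2 hpW).symm.trans hcard
    exact Nat.modEq_zero_iff_dvd.1 this.symm
  -- if `0` were the only fixed point, the number of fixed points would be `1`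
  by_contra hcon
  push_neg at hcon
  have hsub : Subsingleton ↥(fixedPoints G ↥W) := by
    constructor
    rintro ⟨a, ha⟩ ⟨b, hb⟩
    have ha0 : (a : V) = 0 := by
      by_contra hne
      obtain ⟨g, hg⟩ := hcon a (hWK a.2) hne
      apply hg
      have := ha g
      rw [← hsmul, this]
    have hb0 : (b : V) = 0 := by
      by_contra hne
      obtain ⟨g, hg⟩ := hcon b (hWK b.2) hne
      apply hg
      have := hb g
      rw [← hsmul, this]
    apply Subtype.ext
    apply Subtype.ext
    rw [ha0, hb0]
  have hne : Nonempty ↥(fixedPoints G ↥W) := ⟨⟨0, fun g => Subtype.ext (by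
    rw [hsmul]
    simp)⟩⟩
  have h1 : Nat.card ↥(fixedPoints G ↥W) = 1 := Nat.card_eq_one_iff_unique.2 ⟨hsub, hne⟩
  rw [h1] at hpF
  exact hp.out.one_lt.ne' (Nat.dvd_one.1 hpF)

end Fermat.Agent.S55.T.Nak59
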