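/-
S55, layer T, leaf T6a (Nakayama), helper59.  Part 4: modules of exponent `p` over a `p`-group.

If `G` is a finite `p`-group, `A` a `G`-module with `p A = 0` and `H¹(G, A) = 0`, then `A` is
isomorphic to the module of all functions `G → A^G`; in particular `A` is weakly projective.
-/
import Fermat.Agent.S55.T.Nak59.WeakProj
import Fermat.Agent.S55.T.Nak59.FixedPoint
import Fermat.Agent.S55.H295.Basic

set_option autoImplicit false

open CategoryTheory CategoryTheory.Limits groupCohomology

namespace Fermat.Agent.S55.T.Nak59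

open Fermat.Agent.S55

section General

variable {G : Type} [Group G]

/-- An additive map between `ℤ`-modules (with arbitrary module instances) is linear. -/
def addToLin {M N : Type} [AddCommGroup M] [AddCommGroup N] [iM : Module ℤ M] [iN : Module ℤ N]
    (f : M →+ N) : @LinearMap ℤ ℤ _ _ (RingHom.id ℤ) M N _ _ iM iN :=
  @LinearMap.mk ℤ ℤ _ _ (RingHom.id ℤ) M N _ _ iM iN ⟨f, f.map_add⟩ (fun c a => by
    have := @map_intCast_smul M N _ _ (M →+ N) _ _ f ℤ ℤ _ _ iM iN c a
    simpa using this)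

@[simp]
lemma addToLin_apply {M N : Type} [AddCommGroup M] [AddCommGroup N] [iM : Module ℤ M]
    [iN : Module ℤ N] (f : M →+ N) (a : M) : addToLin f a = f a := rfl

lemma rho_mul_apply {k : Type} [CommRing k] (A : Rep.{0} k G) (g h : G) (a : A.V) :
    A.ρ g (A.ρ h a) = A.ρ (g * h) a := by
  rw [map_mul]
  rfl

lemma rho_one_apply {k : Type} [CommRing k] (A : Rep.{0} k G) (a : A.V) : A.ρ 1 a = a := by
  rw [map_one]
  rfl

lemma rho_inv_apply_self {k : Type} [CommRing k] (A : Rep.{0} k G) (g : G) (a : A.V) :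
    A.ρ g⁻¹ (A.ρ g a) = a := by
  rw [rho_mul_apply, inv_mul_cancel, rho_one_apply]

lemma rho_apply_inv_self {k : Type} [CommRing k] (A : Rep.{0} k G) (g : G) (a : A.V) :
    A.ρ g (A.ρ g⁻¹ a) = a := by
  rw [rho_mul_apply, mul_inv_cancel, rho_one_apply]

/-- Linear maps between the underlying modules of representations. -/
abbrev RLin {k : Type} [CommRing k] (A B : Rep.{0} k G) : Type := A.V →ₗ[k] B.V

/-- A morphism of representations from an equivariant linear map. -/
def homMk {k : Type} [CommRing k] {A B : Rep.{0} k G} (f : A.V →ₗ[k] B.V)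
    (hf : ∀ (g : G) (a : A.V), f (A.ρ g a) = B.ρ g (f a)) : A ⟶ B :=
  Rep.ofHom (ρ := A.ρ) (σ := B.ρ)
    ⟨f, fun g => by
      apply LinearMap.ext
      intro a
      exact hf g a⟩

@[simp]
lemma homMk_apply {k : Type} [CommRing k] {A B : Rep.{0} k G} (f : A.V →ₗ[k] B.V)
    (hf : ∀ (g : G) (a : A.V), f (A.ρ g a) = B.ρ g (f a)) (a : A.V) :
    (homMk f hf).hom a = f a := rfl

/-- A linear map of integral representations from an additive map. -/
def linOfAdd {A B : Rep.{0} ℤ G} (f : A.V →+ B.V) : RLin (k := ℤ) A B :=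
  @addToLin A.V B.V _ _ A.hV2 B.hV2 f

@[simp]
lemma linOfAdd_apply {A B : Rep.{0} ℤ G} (f : A.V →+ B.V) (a : A.V) : linOfAdd f a = f a := rfl

/-- A morphism of integral representations from an equivariant additive map. -/
def homOfAdd {A B : Rep.{0} ℤ G} (f : A.V →+ B.V)
    (hf : ∀ (g : G) (a : A.V), f (A.ρ g a) = B.ρ g (f a)) : A ⟶ B :=
  homMk (k := ℤ) (linOfAdd f) hf

@[simp]
lemma homOfAdd_apply {A B : Rep.{0} ℤ G} (f : A.V →+ B.V)
    (hf : ∀ (g : G) (a : A.V), f (A.ρ g a) = B.ρ g (f a)) (a : A.V) :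
    (homOfAdd f hf).hom a = f a := rfl

/-- `H¹ = 0` in concrete terms: every `1`-cocycle is a coboundary. -/
theorem exists_coboundary_of_isZero {k : Type} [CommRing k] (A : Rep.{0} k G)
    (h1 : IsZero (groupCohomology A 1)) (c : G → A.V)
    (hc : ∀ g h : G, c (g * h) = A.ρ g (c h) + c g) :
    ∃ a : A.V, ∀ g : G, c g = A.ρ g a - a := by
  let x : cocycles₁ A := ⟨c, (mem_cocycles₁_iff c).2 hc⟩
  have hx : H1π A x = 0 := (ModuleCat.subsingleton_of_isZero h1).elim _ _
  obtain ⟨a, ha⟩ := (H1π_eq_zero_iff x).1 hx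
  exact ⟨a, fun g => (congrFun ha g).symm⟩

/-- The fixed point lemma for integral representations of `p`-groups. -/
theorem exists_fixed_rep [Finite G] (p : ℕ) [Fact p.Prime] (hG : IsPGroup p G)
    (A : Rep.{0} ℤ G) (hpA : ∀ a : A.V, p • a = 0) (K : AddSubgroup A.V)
    (hK : ∀ g : G, ∀ v ∈ K, A.ρ g v ∈ K) (hK0 : K ≠ ⊥) :
    ∃ v ∈ K, v ≠ 0 ∧ ∀ g : G, A.ρ g v = v := by
  let ρ' : G →* AddMonoid.End A.V :=
    { toFun := fun g => (A.ρ g).toAddMonoidHom
      map_one' := by
        ext a
        change A.ρ 1 a = a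
        rw [map_one]
        rfl
      map_mul' := fun g h => by
        ext a
        change A.ρ (g * h) a = A.ρ g (A.ρ h a)
        rw [map_mul]
        rfl }
  exact exists_ne_zero_fixed p hG ρ' hpA K hK hK0

/-- Subgroups of vector spaces over `ZMod p` are additive retracts. -/
theorem exists_retraction_zmod {V : Type} [AddCommGroup V] (p : ℕ) [Fact p.Prime]
    [Module (ZMod p) V] (I : AddSubgroup V) :
    ∃ r : V →+ I, ∀ v : I, r (v : V) = v := by
  obtain ⟨g, hg⟩ := LinearMap.exists_leftInverse_of_injective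
    (AddSubgroup.toZModSubmodule p I).subtype (Submodule.ker_subtype _)
  refine ⟨AddMonoidHom.mk' (fun v => ⟨(g v : V), (g v).2⟩) ?_, ?_⟩
  · intro a b
    apply Subtype.ext
    change (g (a + b) : V) = (g a : V) + (g b : V)
    rw [map_add]
    rfl
  · intro v
    apply Subtype.ext
    exact congrArg Subtype.val (LinearMap.congr_fun hg ⟨v.1, v.2⟩)

/-- In an abelian group of exponent `p`, every subgroup is an additive retract. -/
theorem exists_retraction {V : Type} [AddCommGroup V] (p : ℕ) [Fact p.Prime]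
    (hpV : ∀ v : V, p • v = 0) (I : AddSubgroup V) :
    ∃ r : V →+ I, ∀ v : I, r (v : V) = v :=
  @exists_retraction_zmod V _ p _ (AddCommGroup.zmodModule hpV) I

/-- The subgroup of invariants. -/
def invSub (A : Rep.{0} ℤ G) : AddSubgroup A.V where
  carrier := {a | ∀ g : G, A.ρ g a = a}
  zero_mem' := fun g => map_zero _
  add_mem' := fun {a b} ha hb g => by
    change A.ρ g (a + b) = a + b
    rw [map_add, ha g, hb g]
  neg_mem' := fun {a} ha g => by
    change A.ρ g (-a) = -a
    rw [map_neg, ha g]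

lemma mem_invSub (A : Rep.{0} ℤ G) (a : A.V) : a ∈ invSub A ↔ ∀ g : G, A.ρ g a = a := Iff.rfl

end General

section PGroup

variable {G : Type} [Group G] [Fintype G]

/-- The comparison map `A → (G → A^G)`, `a ↦ (x ↦ r (x a))`, attached to an additive map
`r : A → A^G`. -/
def cmpAdd (A : Rep.{0} ℤ G) (r : A.V →+ invSub A) : A.V →+ (G → invSub A) where
  toFun a x := r (A.ρ x a)
  map_zero' := by
    funext x
    change r (A.ρ x 0) = 0
    rw [map_zero, map_zero]
  map_add' a b := by
    funext x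
    change r (A.ρ x (a + b)) = r (A.ρ x a) + r (A.ρ x b)
    rw [map_add, map_add]

/-- The comparison morphism `A ⟶ (G → A^G)`. -/
def cmpHom (A : Rep.{0} ℤ G) (r : A.V →+ invSub A) : A ⟶ H783.funRep ℤ G (invSub A) :=
  homOfAdd (cmpAdd A r) (fun g a => by
    funext x
    change r (A.ρ x (A.ρ g a)) = r (A.ρ (x * g) a)
    rw [map_mul]
    rfl)

lemma cmpHom_apply (A : Rep.{0} ℤ G) (r : A.V →+ invSub A) (a : A.V) (x : G) :
    (cmpHom A r).hom a x = r (A.ρ x a) := rfl

lemma cmpHom_apply_inv (A : Rep.{0} ℤ G) (r : A.V →+ invSub A)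
    (hr : ∀ v : invSub A, r (v : A.V) = v) (v : invSub A) (x : G) :
    (cmpHom A r).hom (v : A.V) x = v := by
  rw [cmpHom_apply, v.2 x, hr]

lemma cmpHom_injective (p : ℕ) [Fact p.Prime] (hG : IsPGroup p G) (A : Rep.{0} ℤ G)
    (hpA : ∀ a : A.V, p • a = 0) (r : A.V →+ invSub A)
    (hr : ∀ v : invSub A, r (v : A.V) = v) : Function.Injective (cmpHom A r).hom := by
  let K : AddSubgroup A.V := (cmpAdd A r).ker
  have hK : ∀ g : G, ∀ v ∈ K, A.ρ g v ∈ K := by
    intro g v hv
    rw [AddMonoidHom.mem_ker] at hv ⊢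
    have h := Rep.hom_comm_apply (cmpHom A r) g v
    change cmpAdd A r (A.ρ g v) = (H783.funRep ℤ G (invSub A)).ρ g (cmpAdd A r v) at h
    rw [h, hv, map_zero]
  have hK0 : K = ⊥ := by
    by_contra hne
    obtain ⟨v, hvK, hv0, hvfix⟩ := exists_fixed_rep p hG A hpA K hK hne
    rw [AddMonoidHom.mem_ker] at hvK
    have h1 : (cmpHom A r).hom ((⟨v, hvfix⟩ : invSub A) : A.V) 1 = ⟨v, hvfix⟩ :=
      cmpHom_apply_inv A r hr ⟨v, hvfix⟩ 1
    have h2 : (cmpHom A r).hom v 1 = 0 := congrFun hvK 1
    apply hv0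
    have h3 : (⟨v, hvfix⟩ : invSub A) = 0 := h1.symm.trans h2
    exact congrArg Subtype.val h3
  intro a b hab
  have h : a - b ∈ K := by
    rw [AddMonoidHom.mem_ker, map_sub]
    exact sub_eq_zero.2 hab
  rw [hK0, AddSubgroup.mem_bot] at h
  exact sub_eq_zero.1 h

lemma cmpHom_surjective (p : ℕ) [Fact p.Prime] (hG : IsPGroup p G) (A : Rep.{0} ℤ G)
    (hpA : ∀ a : A.V, p • a = 0) (h1 : IsZero (groupCohomology A 1)) (r : A.V →+ invSub A)
    (hr : ∀ v : invSub A, r (v : A.V) = v) : Function.Surjective (cmpHom A r).hom := by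
  classical
  have hinj := cmpHom_injective p hG A hpA r hr
  have hS : (ShortComplex.mk (cmpHom A r) (cokernel.π (cmpHom A r))
      (cokernel.condition (cmpHom A r))).ShortExact :=
    ShortComplex.ShortExact.mk' (ShortComplex.exact_cokernel (cmpHom A r))
      ((Rep.mono_iff_injective _).2 hinj) inferInstance
  have hπ : Function.Surjective (cokernel.π (cmpHom A r)).hom := H295.rep_shortExact_surj hS
  have hex : ∀ f : (H783.funRep ℤ G (invSub A)).V, (cokernel.π (cmpHom A r)).hom f = 0 →
      ∃ a : A.V, (cmpHom A r).hom a = f := fun f hf => H295.rep_shortExact_exact hS f hf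
  have hzero : ∀ a : A.V, (cokernel.π (cmpHom A r)).hom ((cmpHom A r).hom a) = 0 := by
    intro a
    have h := cokernel.condition (cmpHom A r)
    have h2 := congrArg (fun φ => φ.hom a) h
    exact h2
  -- `p` kills the cokernel
  have hpW : ∀ f : (H783.funRep ℤ G (invSub A)).V, p • f = 0 := by
    intro f
    funext x
    apply Subtype.ext
    change p • ((f x : invSub A) : A.V) = 0
    exact hpA _
  have hpC : ∀ c : (cokernel (cmpHom A r)).V, p • c = 0 := by
    intro c
    obtain ⟨f, rfl⟩ := hπ c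
    rw [← map_nsmul, hpW, map_zero]
  -- fixed vectors of the cokernel vanish
  have hfix : ∀ v : (cokernel (cmpHom A r)).V,
      (∀ g : G, (cokernel (cmpHom A r)).ρ g v = v) → v = 0 := by
    intro v hv
    obtain ⟨f, rfl⟩ := hπ v
    have hex' : ∀ g : G, ∃ a : A.V,
        (cmpHom A r).hom a = (H783.funRep ℤ G (invSub A)).ρ g f - f := by
      intro g
      apply hex
      rw [map_sub, Rep.hom_comm_apply, hv g, sub_self]
    choose c hc using hex'
    have hcoc : ∀ g h : G, c (g * h) = A.ρ g (c h) + c g := by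
      intro g h
      apply hinj
      rw [hc, map_add, Rep.hom_comm_apply, hc, hc, map_mul, map_sub]
      change (H783.funRep ℤ G (invSub A)).ρ g ((H783.funRep ℤ G (invSub A)).ρ h f) - f = _
      abel
    obtain ⟨a, ha⟩ := exists_coboundary_of_isZero A h1 c hcoc
    have hf' : ∀ g : G, (H783.funRep ℤ G (invSub A)).ρ g (f - (cmpHom A r).hom a) =
        f - (cmpHom A r).hom a := by
      intro g
      have h := hc g
      rw [ha g, map_sub, Rep.hom_comm_apply] at h
      rw [map_sub]
      have h2 : (H783.funRep ℤ G (invSub A)).ρ g f =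
          (H783.funRep ℤ G (invSub A)).ρ g ((cmpHom A r).hom a) - (cmpHom A r).hom a + f := by
        rw [h]
        abel
      rw [h2]
      abel
    have hconst : ∀ x : G, (f - (cmpHom A r).hom a) x = (f - (cmpHom A r).hom a) 1 := by
      intro x
      have h := congrFun (hf' x) 1
      change (f - (cmpHom A r).hom a) (1 * x) = _ at h
      rwa [one_mul] at h
    have hfeq : f - (cmpHom A r).hom a =
        (cmpHom A r).hom (((f - (cmpHom A r).hom a) 1 : invSub A) : A.V) := by
      funext x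
      rw [cmpHom_apply_inv A r hr, hconst x]
    have hf : f = (cmpHom A r).hom (a + (((f - (cmpHom A r).hom a) 1 : invSub A) : A.V)) := by
      rw [map_add, ← hfeq]
      abel
    rw [hf]
    exact hzero _
  -- hence the cokernel is trivial
  have hC : ∀ c : (cokernel (cmpHom A r)).V, c = 0 := by
    by_contra hne
    obtain ⟨c, hc⟩ := not_forall.1 hne
    have htop : (⊤ : AddSubgroup (cokernel (cmpHom A r)).V) ≠ ⊥ := by
      intro h
      apply hc
      have h2 : c ∈ (⊤ : AddSubgroup (cokernel (cmpHom A r)).V) := trivial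
      rw [h] at h2
      exact h2
    obtain ⟨v, -, hv0, hvfix⟩ := exists_fixed_rep p hG (cokernel (cmpHom A r)) hpC ⊤
      (fun _ _ _ => trivial) htop
    exact hv0 (hfix v hvfix)
  intro f
  exact hex f (hC _)

/-- **Modules of exponent `p` over `p`-groups.**  If `G` is a finite `p`-group, `p A = 0` and
`H¹(G, A) = 0`, then `A` is weakly projective. -/
theorem isWP_of_pGroup (p : ℕ) [Fact p.Prime] (hG : IsPGroup p G) (A : Rep.{0} ℤ G)
    (hpA : ∀ a : A.V, p • a = 0) (h1 : IsZero (groupCohomology A 1)) : IsWP A := by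
  obtain ⟨r, hr⟩ := exists_retraction p hpA (invSub A)
  exact IsWP.of_bijective (cmpHom A r)
    ⟨cmpHom_injective p hG A hpA r hr, cmpHom_surjective p hG A hpA h1 r hr⟩
    (isWP_funRep (k := ℤ) (invSub A))

end PGroup

end Fermat.Agent.S55.T.Nak59
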