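/-
S55, layer T, leaf T6a (Nakayama), helper59.  Part 6: the main lemma for `p`-groups.

Let `P` be a finite `p`-group, `X` a `P`-module with `Ĥ⁰(P, X) = 0` and `H¹(P, X) = 0`, and `R`
a `P`-module which is projective over `ℤ`.  Then `Hⁱ(P, Hom(R, X)) = 0` for `i = 1, 2`.
-/
import Fermat.Agent.S55.T.Nak59.PGroup
import Fermat.Agent.S55.T.Nak59.IhomExact
import Fermat.Agent.S55.T.Nak59.Les
import Fermat.Agent.S55.H783.ResCor
import Fermat.Agent.S55.H295.CohTriv

set_option autoImplicit false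

open CategoryTheory CategoryTheory.Limits groupCohomology

namespace Fermat.Agent.S55.T.Nak59

open Fermat.Agent.S55

section Cover

variable {G : Type} [Group G] [Fintype G]

/-- The canonical surjection of the free abelian group on (the underlying set of) `X` onto `X`. -/
noncomputable def freeProj (X : Rep.{0} ℤ G) : (X.V →₀ ℤ) →+ X.V :=
  Finsupp.liftAddHom (fun v => (zmultiplesHom X.V) v)

lemma freeProj_single (X : Rep.{0} ℤ G) (v : X.V) : freeProj X (Finsupp.single v 1) = v := by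
  simp [freeProj]

/-- The additive map underlying the cover `(G → ℤ[X]) → X`, `f ↦ ∑ x, x⁻¹ • π (f x)`. -/
noncomputable def coverAdd (X : Rep.{0} ℤ G) : (G → (X.V →₀ ℤ)) →+ X.V :=
  ∑ x : G, ((X.ρ x⁻¹).toAddMonoidHom.comp (freeProj X)).comp (Pi.evalAddMonoidHom _ x)

lemma coverAdd_apply (X : Rep.{0} ℤ G) (f : G → (X.V →₀ ℤ)) :
    coverAdd X f = ∑ x : G, X.ρ x⁻¹ (freeProj X (f x)) := by
  rw [coverAdd, AddMonoidHom.finsetSum_apply]
  rfl

/-- The cover `(G → ℤ[X]) ⟶ X`. -/
noncomputable def cover (X : Rep.{0} ℤ G) : H783.funRep ℤ G (X.V →₀ ℤ) ⟶ X :=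
  homOfAdd (coverAdd X) (fun g f => by
    change coverAdd X (fun x => f (x * g)) = X.ρ g (coverAdd X f)
    rw [coverAdd_apply, coverAdd_apply, map_sum]
    refine Fintype.sum_equiv (Equiv.mulRight g) _ _ fun x => ?_
    change X.ρ x⁻¹ (freeProj X (f (x * g))) = X.ρ g (X.ρ (x * g)⁻¹ (freeProj X (f (x * g))))
    rw [rho_mul_apply, mul_inv_rev, mul_inv_cancel_left])

lemma cover_apply (X : Rep.{0} ℤ G) (f : G → (X.V →₀ ℤ)) :
    (cover X).hom f = ∑ x : G, X.ρ x⁻¹ (freeProj X (f x)) :=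
  coverAdd_apply X f

lemma cover_surjective (X : Rep.{0} ℤ G) : Function.Surjective (cover X).hom := by
  classical
  intro v
  refine ⟨Pi.single (M := fun _ : G => (X.V →₀ ℤ)) 1 (Finsupp.single v 1), ?_⟩
  rw [cover_apply, Finset.sum_eq_single (1 : G)]
  · rw [Pi.single_eq_same, freeProj_single, inv_one, rho_one_apply]
  · intro x _ hx
    rw [Pi.single_eq_of_ne hx, map_zero, map_zero]
  · intro h
    exact absurd (Finset.mem_univ _) h

lemma fun_torsionFree (X : Rep.{0} ℤ G) (p : ℕ) (hp : p ≠ 0)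
    (f : (H783.funRep ℤ G (X.V →₀ ℤ)).V) (hf : p • f = 0) : f = 0 := by
  funext x
  apply Finsupp.ext
  intro v
  have h1 : (p • f) x v = 0 := by rw [hf]; rfl
  change p • (f x v) = 0 at h1
  rw [nsmul_eq_mul] at h1
  rcases mul_eq_zero.1 h1 with h | h
  · exact absurd (by exact_mod_cast h) hp
  · exact h

end Cover

end Fermat.Agent.S55.T.Nak59
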