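/-
S55, layer T, leaf T6a (Nakayama), helper59.  Part 7: the main lemma for `p`-groups.

Let `P` be a finite `p`-group, `X` a `P`-module with `Ĥ⁰(P, X) = 0` and `H¹(P, X) = 0`, and `R`
a `P`-module which is projective over `ℤ`.  Then `Hⁱ(P, Hom(R, X)) = 0` for `i = 1, 2`.
-/
import Fermat.Agent.S55.T.Nak59.Cover

set_option autoImplicit false

open CategoryTheory CategoryTheory.Limits groupCohomology

namespace Fermat.Agent.S55.T.Nak59

open Fermat.Agent.S55

variable {G : Type} [Group G]

lemma nsmul_id_hom_apply {k : Type} [CommRing k] (A : Rep.{0} k G) (m : ℕ) (a : A.V) :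
    (m • 𝟙 A : A ⟶ A).hom a = m • a := by
  induction m with
  | zero =>
    rw [zero_smul, zero_smul]
    rfl
  | succ m ih =>
    rw [succ_nsmul, succ_nsmul, ← ih]
    rfl

lemma ihom_map_nsmul_id {k : Type} [CommRing k] (R A : Rep.{0} k G) (m : ℕ) :
    (Rep.ihom R).map (m • 𝟙 A) = m • 𝟙 ((Rep.ihom R).obj A) := by
  apply Rep.hom_ext
  apply Representation.IntertwiningMap.ext
  apply LinearMap.ext
  intro φ
  apply (ihomLin R A).injective
  apply LinearMap.ext
  intro r
  change (m • 𝟙 A : A ⟶ A).hom (ihomLin R A φ r) =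
    ihomLin R A ((m • 𝟙 ((Rep.ihom R).obj A) : (Rep.ihom R).obj A ⟶ (Rep.ihom R).obj A).hom φ) r
  rw [nsmul_id_hom_apply, nsmul_id_hom_apply, map_nsmul]
  rfl

/-- An element killed by a power of `p` on which multiplication by `p` is injective is zero. -/
lemma eq_zero_of_pow_nsmul {M : Type} [AddCommGroup M] (p : ℕ)
    (hinj : ∀ x : M, p • x = 0 → x = 0) : ∀ (j : ℕ) (x : M), p ^ j • x = 0 → x = 0 := by
  intro j
  induction j with
  | zero =>
    intro x hx
    rwa [pow_zero, one_smul] at hx
  | succ j ih =>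
    intro x hx
    apply ih
    apply hinj
    rw [← mul_nsmul', ← pow_succ']
    exact hx

/-- **Main lemma for `p`-groups.** -/
theorem main_pGroup [Fintype G] (p : ℕ) [Fact p.Prime] (hG : IsPGroup p G) (X R : Rep.{0} ℤ G)
    (hR : @Module.Projective ℤ _ R.V _ R.hV2)
    (hX0 : IsZero (tateCohomology X 0)) (hX1 : IsZero (groupCohomology X 1)) :
    IsZero (groupCohomology ((Rep.ihom R).obj X) 1) ∧
      IsZero (groupCohomology ((Rep.ihom R).obj X) 2) := by
  classical
  have hp : p ≠ 0 := (Fact.out : p.Prime).ne_zero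
  -- (a) the cover `0 → Q → F → X → 0`
  have hepi : Epi (cover X) := (Rep.epi_iff_surjective _).2 (cover_surjective X)
  have hS₁ : (ShortComplex.mk (kernel.ι (cover X)) (cover X)
      (kernel.condition (cover X))).ShortExact :=
    ShortComplex.ShortExact.mk' (ShortComplex.exact_kernel (cover X)) inferInstance hepi
  have hF : ∀ n : ℕ, IsZero (groupCohomology (H783.funRep ℤ G (X.V →₀ ℤ)) (n + 1)) :=
    fun n => H783.isZero_funRep (k := ℤ) (G := G) (X.V →₀ ℤ) n
  have hQ1 : IsZero (groupCohomology (kernel (cover X)) 1) := by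
    have hF1 : IsZero (tateCohomology (H783.funRep ℤ G (X.V →₀ ℤ)) (0 + 1)) :=
      (H295.isZero_tate_iff_group _ 1).2 (hF 0)
    have h := H295.isZero_tate_left hS₁ 0 hX0 hF1
    exact (H295.isZero_tate_iff_group _ 1).1 h
  have hQ2 : IsZero (groupCohomology (kernel (cover X)) 2) :=
    H295.isZero_H_left hS₁ 1 hX1 (hF 1)
  -- (c) multiplication by `p` on `Q`
  have hinjι : Function.Injective (kernel.ι (cover X)).hom :=
    (Rep.mono_iff_injective _).1 inferInstance
  have hpQinj : Function.Injective (p • 𝟙 (kernel (cover X)) :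
      kernel (cover X) ⟶ kernel (cover X)).hom := by
    intro a b hab
    rw [nsmul_id_hom_apply, nsmul_id_hom_apply] at hab
    apply hinjι
    have h : p • ((kernel.ι (cover X)).hom a - (kernel.ι (cover X)).hom b) = 0 := by
      rw [← map_sub, ← map_nsmul, nsmul_sub, hab, sub_self, map_zero]
    exact sub_eq_zero.1 (fun_torsionFree X p hp _ h)
  have hS₂ : (ShortComplex.mk (p • 𝟙 (kernel (cover X)))
      (cokernel.π (p • 𝟙 (kernel (cover X))))
      (cokernel.condition (p • 𝟙 (kernel (cover X))))).ShortExact :=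
    ShortComplex.ShortExact.mk' (ShortComplex.exact_cokernel _)
      ((Rep.mono_iff_injective _).2 hpQinj) inferInstance
  have hπA : Function.Surjective (cokernel.π (p • 𝟙 (kernel (cover X)))).hom :=
    H295.rep_shortExact_surj hS₂
  have hpA : ∀ a : (cokernel (p • 𝟙 (kernel (cover X)))).V, p • a = 0 := by
    intro a
    obtain ⟨q, rfl⟩ := hπA a
    rw [← map_nsmul, ← nsmul_id_hom_apply]
    exact congrArg (fun φ => φ.hom q) (cokernel.condition (p • 𝟙 (kernel (cover X))))
  have hA1 : IsZero (groupCohomology (cokernel (p • 𝟙 (kernel (cover X)))) 1) :=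
    H295.isZero_H_right hS₂ 1 hQ1 hQ2
  have hAwp : IsWP (cokernel (p • 𝟙 (kernel (cover X)))) := isWP_of_pGroup p hG _ hpA hA1
  -- (d) vanishing for `Hom(R, A)` and `Hom(R, F)`
  have hRA : ∀ n : ℕ, IsZero (groupCohomology
      ((Rep.ihom R).obj (cokernel (p • 𝟙 (kernel (cover X))))) (n + 1)) :=
    fun n => (hAwp.ihom R).isZero n
  have hRF : ∀ n : ℕ, IsZero (groupCohomology
      ((Rep.ihom R).obj (H783.funRep ℤ G (X.V →₀ ℤ))) (n + 1)) :=
    fun n => ((isWP_funRep (k := ℤ) (X.V →₀ ℤ)).ihom R).isZero n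
  -- (e) vanishing for `Hom(R, Q)` in degrees `≥ 2`
  have hT₂ := ihomSC_shortExact R hR hS₂
  have hT₁ := ihomSC_shortExact R hR hS₁
  have hRQ : ∀ n : ℕ, IsZero (groupCohomology ((Rep.ihom R).obj (kernel (cover X))) (n + 2)) := by
    intro n
    have hinj := map_f_injective_of_isZero hT₂ (n + 1) (hRA n)
    have hinj' : ∀ x : groupCohomology ((Rep.ihom R).obj (kernel (cover X))) (n + 2),
        p • x = 0 → x = 0 := by
      intro x hx
      apply hinj
      have e1 : ((groupCohomology.functor ℤ G (n + 1 + 1)).map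
          ((Rep.ihom R).map (p • 𝟙 (kernel (cover X))))).hom x = p • x := by
        rw [ihom_map_nsmul_id]
        exact functor_map_nsmul_id_apply _ p _ x
      exact e1.trans (hx.trans (map_zero _).symm)
    obtain ⟨m, hm⟩ := (IsPGroup.iff_card (p := p) (G := G)).1 hG
    have hcard : ∀ x : groupCohomology ((Rep.ihom R).obj (kernel (cover X))) (n + 2),
        p ^ m • x = 0 := by
      intro x
      rw [← hm]
      exact H783.card_nsmul_eq_zero _ (n + 1) x
    have hsub : Subsingleton (groupCohomology ((Rep.ihom R).obj (kernel (cover X))) (n + 2)) :=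
      ⟨fun x y => by
        rw [eq_zero_of_pow_nsmul p hinj' m x (hcard x), eq_zero_of_pow_nsmul p hinj' m y (hcard y)]⟩
    exact ModuleCat.isZero_of_subsingleton _
  -- (f) conclusion
  exact ⟨H295.isZero_H_right hT₁ 1 (hRF 0) (hRQ 0), H295.isZero_H_right hT₁ 2 (hRF 1) (hRQ 1)⟩

end Fermat.Agent.S55.T.Nak59
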