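/-
S55, layer T, leaf T6a (helper59): **Nakayama's theorem** `NakayamaSpec`.

If `X` is a cohomologically trivial `G`-module and `R` is a `G`-lattice, then `Hom(R, X)` is
cohomologically trivial.

Proof: by the twin-vanishing criterion (`H295`) it is enough to show
`H¹(K, Hom(R, X)) = H²(K, Hom(R, X)) = 0` for all subgroups `K`; by the Sylow argument (`H783`) we
may assume that `K` is a `p`-group, where the claim is `main_pGroup`.
-/
import Fermat.Agent.S55.T.Nak59.MainP
import Fermat.Agent.S55.H295.TwinVanishing
import Fermat.Agent.S55.T.Spec2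

set_option autoImplicit false

open CategoryTheory CategoryTheory.Limits groupCohomology

namespace Fermat.Agent.S55.T.Nak59

open Fermat.Agent.S55

section Res

variable {k G H : Type} [CommRing k] [Group G] [Group H]

/-- Restriction commutes with `Hom(R, -)`. -/
noncomputable def resIhomIso (φ : H →* G) (R X : Rep.{0} k G) :
    Rep.res φ ((Rep.ihom R).obj X) ≅ (Rep.ihom (Rep.res φ R)).obj (Rep.res φ X) where
  hom := homMk (A := Rep.res φ ((Rep.ihom R).obj X))
    (B := (Rep.ihom (Rep.res φ R)).obj (Rep.res φ X)) LinearMap.id (fun g a => by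
      apply (ihomLin (Rep.res φ R) (Rep.res φ X)).injective
      apply LinearMap.ext
      intro r
      change X.ρ (φ g) (ihomLin R X a (R.ρ (φ g)⁻¹ r)) = X.ρ (φ g) (ihomLin R X a (R.ρ (φ g⁻¹) r))
      rw [map_inv φ g])
  inv := homMk (A := (Rep.ihom (Rep.res φ R)).obj (Rep.res φ X))
    (B := Rep.res φ ((Rep.ihom R).obj X)) LinearMap.id (fun g a => by
      apply (ihomLin (Rep.res φ R) (Rep.res φ X)).injective
      apply LinearMap.ext
      intro r
      change X.ρ (φ g) (ihomLin R X a (R.ρ (φ g⁻¹) r)) = X.ρ (φ g) (ihomLin R X a (R.ρ (φ g)⁻¹ r))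
      rw [map_inv φ g])
  hom_inv_id := by
    apply Rep.hom_ext
    apply Representation.IntertwiningMap.ext
    apply LinearMap.ext
    intro a
    rfl
  inv_hom_id := by
    apply Rep.hom_ext
    apply Representation.IntertwiningMap.ext
    apply LinearMap.ext
    intro a
    rfl

end Res

variable {G : Type} [Group G] [Finite G]

/-- The vanishing of `H¹` and `H²` of `Hom(R, X)` on `p`-subgroups. -/
lemma isZero_ihom_of_pGroup (X R : Rep.{0} ℤ G)
    (hR : @Module.Projective ℤ _ R.V _ R.hV2) (hX : IsCohTriv X)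
    (p : ℕ) [Fact p.Prime] (K : Subgroup G) (hK : IsPGroup p K) :
    IsZero (groupCohomology (Rep.res K.subtype ((Rep.ihom R).obj X)) 1) ∧
      IsZero (groupCohomology (Rep.res K.subtype ((Rep.ihom R).obj X)) 2) := by
  classical
  let _ : Fintype K := Fintype.ofFinite K
  have hX0 : IsZero (tateCohomology (Rep.res K.subtype X) 0) := hX K 0
  have hX1 : IsZero (groupCohomology (Rep.res K.subtype X) 1) :=
    (H295.isZero_tate_iff_group _ 1).1 (hX K 1)
  have h := main_pGroup p hK (Rep.res K.subtype X) (Rep.res K.subtype R) hR hX0 hX1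
  exact ⟨h.1.of_iso ((groupCohomology.functor ℤ K 1).mapIso (resIhomIso K.subtype R X)),
    h.2.of_iso ((groupCohomology.functor ℤ K 2).mapIso (resIhomIso K.subtype R X))⟩

/-- The vanishing of `H¹` and `H²` of `Hom(R, X)` on all subgroups. -/
lemma isZero_ihom_of_subgroup (X R : Rep.{0} ℤ G)
    (hR : @Module.Projective ℤ _ R.V _ R.hV2) (hX : IsCohTriv X) (K : Subgroup G) (n : ℕ)
    (hn : n = 0 ∨ n = 1) :
    IsZero (groupCohomology (Rep.res K.subtype ((Rep.ihom R).obj X)) (n + 1)) := by
  have key : ∀ x : groupCohomology (Rep.res K.subtype ((Rep.ihom R).obj X)) (n + 1), x = 0 := by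
    intro x
    apply H783.eq_zero_of_forall_sylow _ n x
    intro p _ P
    have hinj : Function.Injective (K.subtype.comp (P : Subgroup K).subtype) :=
      K.subtype_injective.comp (Subgroup.subtype_injective _)
    have hPr : IsPGroup p (K.subtype.comp (P : Subgroup K).subtype).range :=
      P.isPGroup'.of_surjective (K.subtype.comp (P : Subgroup K).subtype).rangeRestrict
        (MonoidHom.rangeRestrict_surjective _)
    have h := isZero_ihom_of_pGroup X R hR hX p _ hPr
    have hz : IsZero (groupCohomology
        (Rep.res (K.subtype.comp (P : Subgroup K).subtype) ((Rep.ihom R).obj X)) (n + 1)) := by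
      rcases hn with rfl | rfl
      · exact H295.isZero_res_of_range _ hinj _ 1 h.1
      · exact H295.isZero_res_of_range _ hinj _ 2 h.2
    exact (ModuleCat.subsingleton_of_isZero hz).elim _ _
  have : Subsingleton (groupCohomology (Rep.res K.subtype ((Rep.ihom R).obj X)) (n + 1)) :=
    ⟨fun x y => by rw [key x, key y]⟩
  exact ModuleCat.isZero_of_subsingleton _

/-- **T6a (Nakayama).** -/
theorem nakayama : NakayamaSpec := by
  intro G _ _ X R hfree _ hX H _ n
  have hR : @Module.Projective ℤ _ R.V _ R.hV2 :=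
    @Module.Projective.of_free ℤ _ R.V _ R.hV2 hfree
  exact H295.isZero_tate_of_twin ((Rep.ihom R).obj X)
    (fun K => ⟨isZero_ihom_of_subgroup X R hR hX K 0 (Or.inl rfl),
      isZero_ihom_of_subgroup X R hR hX K 1 (Or.inr rfl)⟩) H n

end Fermat.Agent.S55.T.Nak59
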